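import Mathlib
import Fermat.Agent.GAL.AN.Family
import Fermat.Agent.GAL.HK.Parabolic
import Fermat.Agent.TOR.SteinbergAsm

/-!
# TOR / AnU : the analytic family is stable under `U_q` (`q ∣ M`)

`uqFun q f τ = ∏_{b < q} f ((τ + b)/q)`; its `q`-expansion is `NmL ℂ q` of the expansion of `f`, and if
`f` has character `P` on `Γ₀(M)` then `uqFun q f` has character `cohU P`.
Main result: `anU_anFamily : AnU (anFamily M p hp hM) q hq hqM`.
-/

set_option autoImplicit false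

open ModularCurve AlgebraicCurve CongruenceSubgroup UpperHalfPlane IntermediateField
open Fermat.Agent.S24 ModularForm
open Fermat.Agent.GAL Fermat.Agent.GAL.AN Fermat.Agent.GAL.HK
open scoped MatrixGroups Manifold

noncomputable section

namespace Fermat.Agent.TOR

local notation "Δ" => ModularForm.discriminant

/-- the multiplicative `U_q` on functions on `ℍ`. -/
def uqFun (q : ℕ) [NeZero q] (f : ℍ → ℂ) : ℍ → ℂ := fun τ => ∏ b ∈ Finset.range q, f (divH q b τ)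

theorem uqFun_apply (q : ℕ) [NeZero q] (f : ℍ → ℂ) (τ : ℍ) :
    uqFun q f τ = ∏ b ∈ Finset.range q, f (divH q b τ) := rfl

theorem uqFun_eq_prod (q : ℕ) [NeZero q] (f : ℍ → ℂ) :
    uqFun q f = ∏ b ∈ Finset.range q, (fun τ => f (divH q b τ)) := by
  funext τ
  rw [uqFun_apply, Finset.prod_apply]

theorem uqFun_mul (q : ℕ) [NeZero q] (f g : ℍ → ℂ) :
    uqFun q (f * g) = uqFun q f * uqFun q g := by
  funext τ
  simp only [uqFun_apply, Pi.mul_apply, Finset.prod_mul_distrib]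

theorem uqFun_pow (q : ℕ) [NeZero q] (f : ℍ → ℂ) (m : ℕ) :
    uqFun q (f ^ m) = uqFun q f ^ m := by
  funext τ
  simp only [uqFun_apply, Pi.pow_apply, Finset.prod_pow]

theorem divH_eq_hAct (q : ℕ) [NeZero q] (b : Fin q) (τ : ℍ) :
    divH q b τ = hAct q (some b) τ := by
  apply UpperHalfPlane.ext
  simp [hAct]

theorem uqFun_eq_prod_fin (q : ℕ) [NeZero q] (f : ℍ → ℂ) (τ : ℍ) :
    uqFun q f τ = ∏ b : Fin q, f (hAct q (some b) τ) := by
  rw [uqFun_apply, ← Fin.prod_univ_eq_prod_range (fun b => f (divH q b τ)) q]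
  exact Finset.prod_congr rfl fun b _ => by rw [divH_eq_hAct]

theorem repU_smul (M : ℕ) {q : ℕ} [NeZero q] (hq : q.Prime) (hqM : q ∣ M)
    (x : (datumU M hq hqM).ι) (τ : ℍ) :
    repU M hq hqM x • τ = divH q (datumU_equiv M hq hqM x).val τ := by
  apply UpperHalfPlane.ext
  rw [repU, coe_heckeMatrix_smul hq.ne_zero, coe_divH]

theorem uqFun_eq_prod_repU (M : ℕ) {q : ℕ} [NeZero q] (hq : q.Prime) (hqM : q ∣ M) (f : ℍ → ℂ)
    (τ : ℍ) : uqFun q f τ = ∏ x : (datumU M hq hqM).ι, f (repU M hq hqM x • τ) := by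
  simp only [repU_smul]
  rw [Equiv.prod_comp (datumU_equiv M hq hqM) (fun y : ZMod q => f (divH q y.val τ)), uqFun_apply]
  obtain ⟨k, rfl⟩ : ∃ k, q = k + 1 := ⟨q - 1, (Nat.succ_pred_eq_of_pos hq.pos).symm⟩
  exact (Fin.prod_univ_eq_prod_range (fun b => f (divH (k + 1) b τ)) (k + 1)).symm

/-- **transformation law** of `uqFun q a`. -/
theorem uqFun_smul (M n : ℕ) {q : ℕ} [NeZero M] [NeZero n] [NeZero q] (hq : q.Prime) (hqM : q ∣ M)
    (a : MerMod M) (P : HPar M n) (ha : IsCharFun M n a P) (γ : Gamma0 M) (τ : ℍ) :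
    uqFun q a.1 ((γ : SL(2, ℤ)) • τ) =
      eN n (cohU M hq hqM (ZMod n) (P : Additive (Gamma0 M) →+ ZMod n) (Additive.ofMul γ)) *
        uqFun q a.1 τ := by
  rw [uqFun_eq_prod_repU M hq hqM, uqFun_eq_prod_repU M hq hqM, cohU, HeckeDatum.T_apply, eN_sum,
    ← Equiv.prod_comp ((datumU M hq hqM).perm γ) (fun j => a.1 (repU M hq hqM j • τ)),
    ← Finset.prod_mul_distrib]
  refine Finset.prod_congr rfl fun x _ => ?_
  have h1 : repU M hq hqM x • ((γ : SL(2, ℤ)) • τ) =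
      (((datumU M hq hqM).coc γ x : Gamma0 M) : SL(2, ℤ)) •
        (repU M hq hqM ((datumU M hq hqM).perm γ x) • τ) := by
    change repU M hq hqM x • (Matrix.SpecialLinearGroup.mapGL ℝ (γ : SL(2, ℤ))) • τ =
      (Matrix.SpecialLinearGroup.mapGL ℝ (((datumU M hq hqM).coc γ x : Gamma0 M) : SL(2, ℤ))) • _
    rw [← mul_smul, ← mul_smul, repU_mul]
  rw [h1, ha]

theorem uqFun_mem (M n : ℕ) {q : ℕ} [NeZero M] [NeZero n] [NeZero q] (hq : q.Prime) (hqM : q ∣ M)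
    (a : MerMod M) (P : HPar M n) (ha : IsCharFun M n a P) : uqFun q a.1 ∈ MerMod M := by
  intro g
  have hdec : ∀ i : Option (Fin q), ∃ (δ : SL(2, ℤ)) (j : Option (Fin q)),
      ∀ τ : ℍ, hAct q i (g • τ) = δ • hAct q j τ := by
    intro i
    obtain ⟨δ, j, h⟩ := HK.exists_hermite hq (heckeRep q i * (g : Matrix (Fin 2) (Fin 2) ℤ))
      (by rw [Matrix.det_mul, HK.det_heckeRep, Matrix.SpecialLinearGroup.det_coe, mul_one])
    exact ⟨δ, j, hAct_smul q h⟩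
  obtain ⟨m, hm⟩ := exists_isHB_prod Finset.univ
    (fun (i : Fin q) τ => a.1 (hAct q (some i) (g • τ))) (by
    intro i _
    obtain ⟨δ, j, h⟩ := hdec (some i)
    obtain ⟨m, hm⟩ := exists_isHB_hAct M q a δ j
    exact ⟨m, by simpa only [h] using hm⟩)
  have heq : (fun τ => Δ τ ^ m * uqFun q a.1 (g • τ)) =
      fun τ => Δ τ ^ m * ∏ i : Fin q, a.1 (hAct q (some i) (g • τ)) := by
    funext τ
    rw [uqFun_eq_prod_fin]
  refine ⟨m, ?_, ?_, ?_⟩
  · apply Her.periodic_of_vadd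
    intro τ
    have hΔ : Δ ((M : ℝ) +ᵥ τ) = Δ τ := Her.vadd_of_periodic (isNice_discriminant M).per τ
    have hmem := conj_T_zpow_mem_Gamma0 M g
    have hsm : g • ((M : ℝ) +ᵥ τ) =
        ((⟨g * ModularGroup.T ^ (M : ℤ) * g⁻¹, hmem⟩ : Gamma0 M) : SL(2, ℤ)) • (g • τ) := by
      have h1 : ((M : ℝ) +ᵥ τ) = ModularGroup.T ^ (M : ℤ) • τ := by
        rw [UpperHalfPlane.modular_T_zpow_smul]
        simp
      rw [h1]
      simp only [mul_smul, inv_smul_smul]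
    have hpar : cohU M hq hqM (ZMod n) (P : Additive (Gamma0 M) →+ ZMod n)
        (Additive.ofMul (⟨g * ModularGroup.T ^ (M : ℤ) * g⁻¹, hmem⟩ : Gamma0 M)) = 0 := by
      apply cohU_isParabolicHom M hq hqM _ (Period.mem_parabolicHoms_iff.mp P.2)
      show ((g * ModularGroup.T ^ (M : ℤ) * g⁻¹ : SL(2, ℤ)) :
        Matrix (Fin 2) (Fin 2) ℤ).trace ^ 2 = 4
      rw [(conj_T_zpow_entries g M).2]
      norm_num
    show Δ ((M : ℝ) +ᵥ τ) ^ m * uqFun q a.1 (g • ((M : ℝ) +ᵥ τ)) =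
      Δ τ ^ m * uqFun q a.1 (g • τ)
    rw [hΔ, hsm, uqFun_smul M n hq hqM a P ha, hpar, eN_zero, one_mul]
  · rw [heq]; exact hm.holo
  · rw [heq]; exact hm.bdd

/-! ## the `q`-expansion -/

theorem isNice_uqFun (M q : ℕ) [NeZero M] [NeZero q] {F : ℍ → ℂ} (hF : IsNice 1 F) :
    IsNice ((M * q : ℕ) : ℝ) (uqFun q F) := by
  rw [uqFun_eq_prod]
  exact isNice_prod _ _ fun b _ => isNice_comp_divH_mul M q b hF

theorem lamQ_uqFun (M q : ℕ) [NeZero M] [NeZero q] {F : ℍ → ℂ} (hF : IsNice 1 F) :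
    lamQ (M * q) (uqFun q F) = qExpand ℂ M (qExpand ℂ q (NmL ℂ q (lamQ 1 F))) := by
  rw [uqFun_eq_prod, lamQ_prod _ _ fun b _ => isNice_comp_divH_mul M q b hF]
  have h2 : ∀ b ∈ Finset.range q, lamQ (M * q) (fun τ => F (divH q b τ))
      = qExpand ℂ M (GR.qScale (zetaU q ^ b) (lamQ 1 F)) := by
    intro b _
    rw [Nat.mul_comm, lamQ_mul_nat q M (isNice_comp_divH q b hF), lamQ_comp_divH q b hF]
  rw [Finset.prod_congr rfl h2, ← map_prod, qExpand_NmL q (isPrimitiveRoot_zetaU q)]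
  rfl

theorem LamM_uqFun (M q : ℕ) [NeZero M] [NeZero q]
    (a : MerMod M) (A : LaurentSeries ℂ) (hA : LamM M a = kapC M A)
    (hmem : uqFun q a.1 ∈ MerMod M) :
    LamM M ⟨uqFun q a.1, hmem⟩ = kapC M (NmL ℂ q A) := by
  obtain ⟨m, hm⟩ := a.2 1
  simp only [one_smul] at hm
  set G : ℍ → ℂ := fun τ => Δ τ ^ m * a.1 τ with hG
  have hGM : lamQ M G = qExpand ℂ M (lamQ 1 Δ ^ m * A) := by
    have h1 := lamQ_pow_mul_Lam (Subalgebra.inclusion (MerMod_le_MerInf M) a) hm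
    have h2 : Lam M (Subalgebra.inclusion (MerMod_le_MerInf M) a) = kapC M A := hA
    have h3 : lamQ M Δ = qExpand ℂ M (lamQ 1 Δ) := by
      have := lamQ_mul_nat 1 M (f := Δ) (by simpa using isNice_discriminant_one)
      rwa [one_mul] at this
    rw [h2, h3] at h1
    rw [map_mul, map_pow]
    exact h1.symm
  have hG1 : IsNice 1 G := isNice_one_of_lamQ_eq hm hGM
  have hGA : lamQ 1 G = lamQ 1 Δ ^ m * A := lamQ_one_of_lamQ_eq hm hGM
  have hfun : uqFun q Δ ^ m * uqFun q a.1 = uqFun q G := by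
    rw [← uqFun_pow, ← uqFun_mul]
    rfl
  have hT : uqFun q a.1 ∈ MerInf M := MerMod_le_MerInf M hmem
  obtain ⟨T, hTdef⟩ : ∃ T : MerInf (M * q), T.1 = uqFun q a.1 :=
    ⟨⟨_, MerInf_le_mul M q hT⟩, rfl⟩
  obtain ⟨HD, hHD⟩ : ∃ D : MerInf (M * q), D.1 = uqFun q Δ :=
    ⟨⟨_, (isNice_uqFun M q isNice_discriminant_one).mem_MerInf⟩, rfl⟩
  obtain ⟨HG, hHG⟩ : ∃ D : MerInf (M * q), D.1 = uqFun q G :=
    ⟨⟨_, (isNice_uqFun M q hG1).mem_MerInf⟩, rfl⟩
  have hmul : HD ^ m * T = HG := by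
    apply Subtype.ext
    have : (HD ^ m * T).1 = HD.1 ^ m * T.1 := rfl
    rw [this, hHD, hTdef, hHG, hfun]
  have hLD : Lam (M * q) HD = qExpand ℂ M (qExpand ℂ q (NmL ℂ q (lamQ 1 Δ))) := by
    rw [Lam_of_isNice (M * q) HD (by rw [hHD]; exact isNice_uqFun M q isNice_discriminant_one),
      hHD]
    exact lamQ_uqFun M q isNice_discriminant_one
  have hLG : Lam (M * q) HG = qExpand ℂ M (qExpand ℂ q (NmL ℂ q (lamQ 1 G))) := by
    rw [Lam_of_isNice (M * q) HG (by rw [hHG]; exact isNice_uqFun M q hG1), hHG]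
    exact lamQ_uqFun M q hG1
  have hD0 : Lam (M * q) HD ≠ 0 := by
    intro h0
    have hD00 : HD = 0 := Lam_injective (M * q) (by rw [h0, map_zero])
    have h1 : HD.1 UpperHalfPlane.I = 0 := by rw [hD00]; rfl
    rw [hHD, uqFun_apply] at h1
    obtain ⟨b, -, hb⟩ := Finset.prod_eq_zero_iff.mp h1
    exact ModularForm.discriminant_ne_zero _ hb
  have hLT : Lam (M * q) T = qExpand ℂ M (qExpand ℂ q (NmL ℂ q A)) := by
    have h1 := congrArg (Lam (M * q)) hmul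
    rw [map_mul, map_pow, hLG, hGA, map_mul, map_pow, map_mul, map_pow, map_mul, map_pow,
      ← hLD] at h1
    exact mul_left_cancel₀ (pow_ne_zero m hD0) h1
  have hraise := Lam_mul_nat M q ⟨uqFun q a.1, hT⟩
  have hTeq : T = ⟨uqFun q a.1, MerInf_le_mul M q hT⟩ := Subtype.ext hTdef
  rw [← hTeq, hLT, qExpand_qExpand, qExpand_congr (mul_comm M q), ← qExpand_qExpand] at hraise
  exact ((qExpand ℂ q).injective hraise).symm

/-! ## assembly -/

section asm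

variable {M n : ℕ} [NeZero M] [NeZero n]

/-- `U_q` on `HPar`. -/
def uqP {q : ℕ} (hq : q.Prime) (hqM : q ∣ M) (P : HPar M n) : HPar M n :=
  ⟨cohU M hq hqM (ZMod n) (P : Additive (Gamma0 M) →+ ZMod n),
    cohU_isParabolicHom M hq hqM _ P.2⟩

theorem isCharFun_uqFun {q : ℕ} [NeZero q] (hq : q.Prime) (hqM : q ∣ M) (a : MerMod M)
    (P : HPar M n) (ha : IsCharFun M n a P) (hmem : uqFun q a.1 ∈ MerMod M) :
    IsCharFun M n ⟨uqFun q a.1, hmem⟩ (uqP hq hqM P) := by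
  intro γ τ
  exact uqFun_smul M n hq hqM a P ha γ τ

theorem isRealC_uq {q : ℕ} [NeZero q] (hq : q.Prime) (hqM : q ∣ M) {H : LaurentSeries ℂ}
    {Pa Pb : HPar M n} (h : IsRealC M n H Pa Pb) :
    IsRealC M n (NmL ℂ q H) (uqP hq hqM Pa) (uqP hq hqM Pb) := by
  have hH := h.ne_zero
  obtain ⟨a, b, ha, hb, hPa, hPb, hab⟩ := h
  obtain ⟨A, hA⟩ := hPa.exists_kapC
  obtain ⟨B, hB⟩ := hPb.exists_kapC
  have hAB : A = H * B := by
    apply kapC_injective M
    rw [map_mul, ← hA, ← hB, hab]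
  have hA0 : A ≠ 0 := by
    rintro rfl
    rw [map_zero] at hA
    exact LamM_ne_zero ha hA
  have hB0 : B ≠ 0 := by
    rintro rfl
    rw [map_zero] at hB
    exact LamM_ne_zero hb hB
  have hne : ∀ X : LaurentSeries ℂ, X ≠ 0 → NmL ℂ q X ≠ 0 := by
    intro X hX
    exact ((IsUnit.mk0 X hX).map (NmL ℂ q)).ne_zero
  have hma := uqFun_mem M n hq hqM a Pa hPa
  have hmb := uqFun_mem M n hq hqM b Pb hPb
  have eA := LamM_uqFun M q a A hA hma
  have eB := LamM_uqFun M q b B hB hmb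
  refine ⟨⟨_, hma⟩, ⟨_, hmb⟩, ?_, ?_,
    isCharFun_uqFun hq hqM a Pa hPa hma, isCharFun_uqFun hq hqM b Pb hPb hmb, ?_⟩
  · intro h0
    rw [h0, map_zero] at eA
    exact hne A hA0 (kapC_injective M (by rw [← eA, map_zero]))
  · intro h0
    rw [h0, map_zero] at eB
    exact hne B hB0 (kapC_injective M (by rw [← eB, map_zero]))
  · rw [eA, eB, hAB, map_mul, map_mul]

theorem isReal_uq {q : ℕ} [NeZero q] (hq : q.Prime) (hqM : q ∣ M) (u : (LaurentSeries Qb)ˣ)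
    {Pa Pb : HPar M n} (h : IsReal M n (u : LaurentSeries Qb) Pa Pb) :
    IsReal M n ((nmU q u : (LaurentSeries Qb)ˣ) : LaurentSeries Qb)
      (uqP hq hqM Pa) (uqP hq hqM Pb) := by
  have := isRealC_uq hq hqM h
  unfold IsReal
  show IsRealC M n (iotaS (NmL Qb q (u : LaurentSeries Qb))) _ _
  rw [show iotaS (NmL Qb q (u : LaurentSeries Qb)) = NmL ℂ q (iotaS (u : LaurentSeries Qb)) from
    NmL_coeffMap iota q _]
  exact this

theorem nmU_mem_Van {q : ℕ} [NeZero q] (hq : q.Prime) (hqM : q ∣ M) (u : (LaurentSeries Qb)ˣ)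
    (hu : u ∈ Van M n) : nmU q u ∈ Van M n := by
  obtain ⟨Pa, Pb, h⟩ := hu
  exact ⟨_, _, isReal_uq hq hqM u h⟩

theorem chrFun_nmU {q : ℕ} [NeZero q] (hq : q.Prime) (hqM : q ∣ M) (u : Van M n) :
    HPar.hom (AN.chrFun (⟨_, nmU_mem_Van hq hqM u u.2⟩ : Van M n))
      = cohU M hq hqM (ZMod n) (HPar.hom (AN.chrFun u)) := by
  obtain ⟨Pa, Pb, hu, eu⟩ := exists_isReal u
  have h1 := isReal_uq hq hqM u hu
  rw [chrFun_eq (⟨_, nmU_mem_Van hq hqM u u.2⟩ : Van M n) h1, eu]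
  show cohU M hq hqM (ZMod n) (HPar.hom Pa) - cohU M hq hqM (ZMod n) (HPar.hom Pb)
    = cohU M hq hqM (ZMod n) (HPar.hom Pa - HPar.hom Pb)
  rw [map_sub]

end asm

/-- **The contract `AnU` for the concrete analytic family.** -/
theorem anU_anFamily (M p : ℕ) [NeZero M] (hp : p ≠ 0) (hM : AdmLevel M) {q : ℕ} [NeZero q]
    (hq : q.Prime) (hqM : q ∣ M) : AnU (anFamily M p hp hM) q hq hqM where
  mem m u hu :=
    haveI : NeZero (p ^ m) := ⟨pow_ne_zero m hp⟩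
    nmU_mem_Van hq hqM u hu
  chr m u hu :=
    haveI : NeZero (p ^ m) := ⟨pow_ne_zero m hp⟩
    chrFun_nmU hq hqM ⟨u, hu⟩

end Fermat.Agent.TOR
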